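import Fermat.Agent.H7.SS2.RegLDefs
import Fermat.Agent.H41.SS.TubeChart
import Fermat.Agent.H8.SS.Haupt4

/-!
# P-SS2 row 1048 (SS2-C5e SIMPLE-Y): the exact statement (helper95)

Level `L = M q`, `4 ∣ M`, `q` an odd prime, `q ∤ M`, unramified base (`q` a uniformiser of
`A₀`); `E' = ModelField K₁ (M q)`, chart `x = j`; `H` the Hauptmodul of level 4 (expansion
`h4S`), `H_q = H(t^q)`, `Y = H - H_q ^ q`.

`SimpleYStatement M q` : at a maximal ideal `𝔪 ∋ q` of `B(j)` which does NOT lie on the component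
`V_0 = vZero W` (so it lies on `V_∞ = vInf` only), for every `Y ∈ B(j)` with `Y = H - H_q ^ q`:

* either `Y` is a unit at `𝔪` (`Y ∉ 𝔪`),
* or `Y` is a regular parameter: `Fermat.Agent.H41.SS.IsRegularAt A₀ E' q j 𝔪 Y`
  (`𝔪 B_𝔪 = (q, Y)` and `Y` is not nilpotent modulo `q B_𝔪`).

`SimpleYGenStatement M q` : the same for `u = e Y - q R`, `e ∈ B(j) ∖ 𝔪`, `R ∈ B(j)` (the form
`u = D(H_q)^m Y₁ - q R₁` of the norm identity, consumed by `Fermat.Agent.H12.SS2.reg11_core`).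
-/

set_option autoImplicit false

noncomputable section

namespace Fermat.Agent.H95.SS2

open ModularCurve
open Fermat.Agent.H22.KL
open Fermat.Agent.H48.QExp
open Fermat.Agent.H82.SS
open Fermat.Agent.H7.SS
open Fermat.Agent.H7.SS2
open Fermat.Agent.H11.SS2

/-- **SIMPLE-Y** (row 1048): at a closed point of the special fibre of level `M q` lying on
`V_∞` only, `Y = H - H_q ^ q` is a unit or a regular parameter. -/
def SimpleYStatement (M q : ℕ) [NeZero M] [NeZero q] : Prop :=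
  ∀ (K₁ : Type) [Field K₁] [Algebra ℚ K₁] [FiniteDimensional ℚ K₁]
    (A₀ : Type) [CommRing A₀] [IsDomain A₀] [IsDiscreteValuationRing A₀]
    [Algebra A₀ K₁] [IsFractionRing A₀ K₁]
    [Algebra A₀ (ModelField K₁ (M * q))] [IsScalarTower A₀ K₁ (ModelField K₁ (M * q))]
    [CharZero (ModelField K₁ (M * q))],
    Irreducible ((q : ℕ) : A₀) →
    ∀ (x : ModelField K₁ (M * q)), (x : LaurentSeries K₁) = coeffEmb K₁ jq →
    ∀ (W : ModelField K₁ (M * q) ≃ₐ[K₁] ModelField K₁ (M * q)), IsAtkinLehnerModel K₁ M q W →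
    ∀ (H Hq : ModelField K₁ (M * q)),
      (H : LaurentSeries K₁) = coeffEmb K₁ (Fermat.Agent.H8.SS.h4S ℚ) →
      (Hq : LaurentSeries K₁) = qExpand K₁ q (coeffEmb K₁ (Fermat.Agent.H8.SS.h4S ℚ)) →
    ∀ 𝔪 : Ideal (chartClosure A₀ (ModelField K₁ (M * q)) x), 𝔪.IsMaximal →
      algebraMap A₀ (chartClosure A₀ (ModelField K₁ (M * q)) x) ((q : ℕ) : A₀) ∈ 𝔪 →
      ¬ Through A₀ (ModelField K₁ (M * q)) x 𝔪 (vZero K₁ A₀ (M * q) W) →
      ∀ Y : chartClosure A₀ (ModelField K₁ (M * q)) x,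
        (Y : ModelField K₁ (M * q)) = H - Hq ^ q →
        Y ∉ 𝔪 ∨
        Fermat.Agent.H41.SS.IsRegularAt A₀ (ModelField K₁ (M * q)) ((q : ℕ) : A₀) x 𝔪 Y

/-- **SIMPLE-Y, general form**: the same for `e Y - q R`, `e ∉ 𝔪`. -/
def SimpleYGenStatement (M q : ℕ) [NeZero M] [NeZero q] : Prop :=
  ∀ (K₁ : Type) [Field K₁] [Algebra ℚ K₁] [FiniteDimensional ℚ K₁]
    (A₀ : Type) [CommRing A₀] [IsDomain A₀] [IsDiscreteValuationRing A₀]
    [Algebra A₀ K₁] [IsFractionRing A₀ K₁]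
    [Algebra A₀ (ModelField K₁ (M * q))] [IsScalarTower A₀ K₁ (ModelField K₁ (M * q))]
    [CharZero (ModelField K₁ (M * q))],
    Irreducible ((q : ℕ) : A₀) →
    ∀ (x : ModelField K₁ (M * q)), (x : LaurentSeries K₁) = coeffEmb K₁ jq →
    ∀ (W : ModelField K₁ (M * q) ≃ₐ[K₁] ModelField K₁ (M * q)), IsAtkinLehnerModel K₁ M q W →
    ∀ (H Hq : ModelField K₁ (M * q)),
      (H : LaurentSeries K₁) = coeffEmb K₁ (Fermat.Agent.H8.SS.h4S ℚ) →
      (Hq : LaurentSeries K₁) = qExpand K₁ q (coeffEmb K₁ (Fermat.Agent.H8.SS.h4S ℚ)) →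
    ∀ 𝔪 : Ideal (chartClosure A₀ (ModelField K₁ (M * q)) x), 𝔪.IsMaximal →
      algebraMap A₀ (chartClosure A₀ (ModelField K₁ (M * q)) x) ((q : ℕ) : A₀) ∈ 𝔪 →
      ¬ Through A₀ (ModelField K₁ (M * q)) x 𝔪 (vZero K₁ A₀ (M * q) W) →
      ∀ Y e R : chartClosure A₀ (ModelField K₁ (M * q)) x,
        (Y : ModelField K₁ (M * q)) = H - Hq ^ q → e ∉ 𝔪 →
        (e * Y -
          algebraMap A₀ (chartClosure A₀ (ModelField K₁ (M * q)) x) ((q : ℕ) : A₀) * R) ∉ 𝔪 ∨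
        Fermat.Agent.H41.SS.IsRegularAt A₀ (ModelField K₁ (M * q)) ((q : ℕ) : A₀) x 𝔪
          (e * Y -
            algebraMap A₀ (chartClosure A₀ (ModelField K₁ (M * q)) x) ((q : ℕ) : A₀) * R)

end Fermat.Agent.H95.SS2

end
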