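import Fermat.Agent.H95.SS2.SimpleYAbs
import Fermat.Agent.H41.SS.OrdFinal
import Fermat.Agent.H22.SS.LevelRegH4
import Fermat.Agent.H7.SS2.RegLModel
import Fermat.Agent.H66.SS.Frac41

/-!
# P-SS2 row 1048 (SS2-C5e SIMPLE-Y): the model (helper95)

* `levelReg_h4_of` : level `M`, `4 ∣ M`, chart `j`: at a maximal ideal `𝔫 ∋ ϖ` of `B'(j)` there
  is a monic `g ∈ A₀[X]` with irreducible reduction such that `𝔫 B'_𝔫 = (ϖ, g(H))`
  (helper22's `modelLevelReg_h4` with the generator exposed).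
* `simpleY_regular` : level `M q`: at a maximal ideal `𝔪 ∋ ϖ` of `B(j)` which does not lie on
  `V_0`, `(ϖ, g(H))` are regular parameters (helper41's `ssPlaceGenOrd_infty` with the parameter
  exposed), and the centre of `V_∞` is generated by `ϖ` at `𝔪`.
-/

set_option autoImplicit false
set_option linter.style.haveILetI false
set_option linter.unusedSectionVars false
set_option linter.unusedVariables false
set_option maxHeartbeats 1000000
set_option synthInstance.maxHeartbeats 400000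

noncomputable section

open Polynomial

namespace Fermat.Agent.H95.SS2

open ModularCurve AlgebraicCurve
open Fermat.Agent.H22.KL Fermat.Agent.H45 Fermat.Agent.H7.SS Fermat.Agent.H48.QExp
open Fermat.Agent.H82.SS Fermat.Agent.H8.SS
open Fermat.Agent.H41.SS Fermat.Agent.H22.SS
open Fermat.Agent.H87.KL (evX IntX)

section LevelM

/-- **REG' at level `M` with the generator exposed** (`4 ∣ M`, `q` odd, `q ∤ M`, chart `j`). -/
theorem levelReg_h4_of (M q : ℕ) [NeZero M] [NeZero q] (hq : q.Prime) (hq2 : q ≠ 2)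
    (hqM : ¬ q ∣ M) (h4 : 4 ∣ M)
    (K₁ : Type) [Field K₁] [Algebra ℚ K₁] [FiniteDimensional ℚ K₁]
    (A₀ : Type) [CommRing A₀] [IsDomain A₀] [IsDiscreteValuationRing A₀]
    [Algebra A₀ K₁] [IsFractionRing A₀ K₁]
    [Algebra A₀ (ModelField K₁ M)] [IsScalarTower A₀ K₁ (ModelField K₁ M)]
    [CharZero (ModelField K₁ M)]
    (hqA : ¬ IsUnit ((q : ℕ) : A₀)) (ϖ : A₀) (hϖ : Irreducible ϖ)
    (x : ModelField K₁ M) (hx : (x : LaurentSeries K₁) = coeffEmb K₁ jq)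
    (H : ModelField K₁ M) (hHS : (H : LaurentSeries K₁) = h4S K₁)
    (𝔫 : Ideal ↥(chartClosure A₀ (ModelField K₁ M) x)) (h𝔫 : 𝔫.IsMaximal)
    (hϖ𝔫 : algebraMap A₀ ↥(chartClosure A₀ (ModelField K₁ M) x) ϖ ∈ 𝔫) :
    ∃ (hHB : H ∈ chartClosure A₀ (ModelField K₁ M) x) (g : A₀[X]),
      Irreducible (g.map (IsLocalRing.residue A₀)) ∧
      cchIncl A₀ (ModelField K₁ M) x H hHB (cchEv A₀ (ModelField K₁ M) H g) ∈ 𝔫 ∧
      ∀ z ∈ 𝔫, ∃ s, s ∉ 𝔫 ∧ ∃ b₁ b₂ : ↥(chartClosure A₀ (ModelField K₁ M) x),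
        s * z = algebraMap A₀ ↥(chartClosure A₀ (ModelField K₁ M) x) ϖ * b₁ +
          cchIncl A₀ (ModelField K₁ M) x H hHB (cchEv A₀ (ModelField K₁ M) H g) * b₂ := by
  haveI : CharZero K₁ := algebraRat.charZero K₁
  have hinj : Function.Injective (algebraMap A₀ (ModelField K₁ M)) := by
    rw [IsScalarTower.algebraMap_eq A₀ K₁ (ModelField K₁ M)]
    exact (algebraMap K₁ (ModelField K₁ M)).injective.comp (IsFractionRing.injective A₀ K₁)
  have hHemb : (H : LaurentSeries K₁) = coeffEmb K₁ (h4S ℚ) := by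
    rw [hHS, Fermat.Agent.H98.SS.coeffEmb_h4S]
  have hrelM : x * H ^ 4 * (H + 16) = (H ^ 2 + 256 * H + 4096) ^ 3 := by
    apply (IntermediateField.val (laurentBaseChange K₁ (modularFunctionFieldFull M))).injective
    simp only [map_mul, map_pow, map_add, map_ofNat]
    show (x : LaurentSeries K₁) * (H : LaurentSeries K₁) ^ 4 * ((H : LaurentSeries K₁) + 16) =
      ((H : LaurentSeries K₁) ^ 2 + 256 * (H : LaurentSeries K₁) + 4096) ^ 3
    rw [hx, hHS, Fermat.Agent.H27.KLGB.coeffEmb_jq]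
    exact h4S_j (k := K₁)
  have hH0 : H ≠ 0 := fun h => h4S_ne_zero (k := K₁) (by rw [← hHS, h]; rfl)
  have hH16 : H + 16 ≠ 0 := by
    intro h
    apply h4S_add_sixteen_ne_zero K₁
    have := congrArg
      (IntermediateField.val (laurentBaseChange K₁ (modularFunctionFieldFull M))) h
    simp only [map_add, map_ofNat, map_zero] at this
    rw [← hHS]
    exact this
  have hmem : ∀ z : ModelField K₁ M, z ∈ chartClosure A₀ (ModelField K₁ M) x ↔
      IsIntegral ↥(chartRing A₀ (ModelField K₁ M) x) z := fun z => Iff.rfl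
  have hxint : IsIntegral ↥(chartRing A₀ (ModelField K₁ M) x) x := by
    have : x = algebraMap ↥(chartRing A₀ (ModelField K₁ M) x) (ModelField K₁ M)
        ⟨x, Algebra.self_mem_adjoin_singleton A₀ x⟩ := rfl
    rw [this]
    exact isIntegral_algebraMap
  have h2 : IsUnit (((2 ^ 20 : ℕ) : ℕ) : A₀) := by
    apply Fermat.Agent.H2.klbr_isUnit_natCast_of_coprime hqA
    apply Nat.Coprime.pow_left
    rw [Nat.coprime_primes Nat.prime_two hq]
    exact fun h => hq2 h.symm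
  obtain ⟨c₀, hc₀⟩ := h2.exists_left_inv
  have hc : algebraMap A₀ ↥(chartRing A₀ (ModelField K₁ M) x) c₀ * 2 ^ 20 = 1 := by
    have := congrArg (algebraMap A₀ ↥(chartRing A₀ (ModelField K₁ M) x)) hc₀
    rw [map_mul, map_one] at this
    rw [← this]
    congr 1
    rw [map_natCast]
    push_cast
    norm_num
  obtain ⟨hHint, u, huint, hu⟩ :=
    Fermat.Agent.H48.SSHaupt.isIntegral_haupt_unit _ hc x H hxint hH0 hH16 hrelM
  have hHB : H ∈ chartClosure A₀ (ModelField K₁ M) x := (hmem H).2 hHint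
  have huB : u ∈ chartClosure A₀ (ModelField K₁ M) x := (hmem u).2 huint
  have h16B : (16 : ModelField K₁ M) ∈ chartClosure A₀ (ModelField K₁ M) x := by
    have : (16 : ModelField K₁ M) = algebraMap A₀ (ModelField K₁ M) 16 := (map_ofNat _ 16).symm
    rw [this]
    exact (chartClosure A₀ (ModelField K₁ M) x).algebraMap_mem 16
  have hvB : u ^ 4 * (H + 16) ^ 3 ∈ chartClosure A₀ (ModelField K₁ M) x :=
    (chartClosure A₀ (ModelField K₁ M) x).mul_mem
      ((chartClosure A₀ (ModelField K₁ M) x).pow_mem huB 4)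
      ((chartClosure A₀ (ModelField K₁ M) x).pow_mem
        ((chartClosure A₀ (ModelField K₁ M) x).add_mem hHB h16B) 3)
  have hvQ : u ^ 4 * (H + 16) ^ 3 * aeval H (h4Den A₀) = 1 := by
    rw [h4Den_aeval]
    have : u ^ 4 * (H + 16) ^ 3 * (H ^ 4 * (H + 16)) = (u * (H * (H + 16))) ^ 4 := by ring
    rw [this, hu, one_pow]
  have hrel : x * aeval H (h4Den A₀) = aeval H (h4Num A₀) := by
    rw [h4Den_aeval, h4Num_aeval, ← hrelM]
    ring
  have hdeg : (h4Den A₀).natDegree < (h4Num A₀).natDegree := by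
    rw [h4Den_natDegree, h4Num_natDegree]
    norm_num
  -- the point of the chart `H`
  set 𝔫' : Ideal ↥(chartClosure A₀ (ModelField K₁ M) H) :=
    𝔫.comap (cchIncl A₀ (ModelField K₁ M) x H hHB) with h𝔫'def
  have h𝔫' : 𝔫'.IsMaximal :=
    cch_isMaximal_comap A₀ (ModelField K₁ M) ϖ hϖ x H (h4Num A₀) (h4Den A₀) (h4Num_monic A₀)
      hdeg hrel hHB 𝔫 h𝔫 hϖ𝔫
  have hϖ𝔫' : algebraMap A₀ ↥(chartClosure A₀ (ModelField K₁ M) H) ϖ ∈ 𝔫' := by
    rw [h𝔫'def, Ideal.mem_comap, cchIncl_algebraMap]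
    exact hϖ𝔫
  have hQ𝔫' : cchEv A₀ (ModelField K₁ M) H (h4Den A₀) ∉ 𝔫' := by
    intro hmem
    have hQunit : (⟨u ^ 4 * (H + 16) ^ 3, hvB⟩ : ↥(chartClosure A₀ (ModelField K₁ M) x)) *
        cchIncl A₀ (ModelField K₁ M) x H hHB (cchEv A₀ (ModelField K₁ M) H (h4Den A₀)) = 1 :=
      Subtype.ext hvQ
    apply h𝔫.ne_top
    rw [Ideal.eq_top_iff_one, ← hQunit]
    exact Ideal.mul_mem_left _ _ (Ideal.mem_comap.1 hmem)
  haveI hp𝔫' := h𝔫'.isPrime
  obtain ⟨g, hgm, hgirr, hg𝔫'⟩ :=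
    ordPoint_exists_monic A₀ (ModelField K₁ M) ϖ hϖ H 𝔫' h𝔫' hϖ𝔫'
  have hCϖ : cchEv A₀ (ModelField K₁ M) H (C ϖ) =
      algebraMap A₀ ↥(chartClosure A₀ (ModelField K₁ M) H) ϖ :=
    Subtype.ext (aeval_C H ϖ)
  have hgen : ∀ F : A₀[X], (∃ p r : A₀[X], F = C ϖ * p + g * r) →
      cchEv A₀ (ModelField K₁ M) H F ∈ 𝔫' := by
    rintro F ⟨p, r, rfl⟩
    rw [map_add, map_mul, map_mul, hCϖ]
    exact Ideal.add_mem _ (Ideal.mul_mem_right _ _ hϖ𝔫') (Ideal.mul_mem_right _ _ hg𝔫')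
  have hQsplit : cchEv A₀ (ModelField K₁ M) H (h4Den A₀) =
      cchEv A₀ (ModelField K₁ M) H X ^ 4 * cchEv A₀ (ModelField K₁ M) H (X + C 16) := by
    rw [h4Den, map_mul, map_pow]
  have hX : ¬ ∃ p r : A₀[X], (X : A₀[X]) = C ϖ * p + g * r := by
    intro h
    apply hQ𝔫'
    rw [hQsplit]
    exact Ideal.mul_mem_right _ _ (Ideal.pow_mem_of_mem _ (hgen _ h) 4 (by norm_num))
  have hX16 : ¬ ∃ p r : A₀[X], (X + C 16 : A₀[X]) = C ϖ * p + g * r := by
    intro h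
    apply hQ𝔫'
    rw [hQsplit]
    exact Ideal.mul_mem_left _ _ (hgen _ h)
  have hUN : UnramifiedNear A₀ (ModelField K₁ M) ϖ H g :=
    Fermat.Agent.H33.SS.modelUnramified_h4 M h4 K₁ A₀ ϖ hϖ H hHemb g hgm hgirr hX hX16
  have hGB : GoodBasis A₀ (ModelField K₁ M) ϖ H :=
    Fermat.Agent.H98.SS.modelGoodBasis_h4 M q hq hqM hq2 K₁ A₀ hqA ϖ hϖ H hHemb
  have hHtr : Transcendental A₀ H :=
    Fermat.Agent.H98.SS.modelTranscendental_h4 M K₁ A₀ H hHemb
  have hREG' : ∀ z : ↥(chartClosure A₀ (ModelField K₁ M) H),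
      cchIncl A₀ (ModelField K₁ M) x H hHB z ∈ 𝔫 →
      ∃ s : ↥(chartClosure A₀ (ModelField K₁ M) H),
        cchIncl A₀ (ModelField K₁ M) x H hHB s ∉ 𝔫 ∧
        ∃ b₁ b₂ : ↥(chartClosure A₀ (ModelField K₁ M) H),
          s * z = algebraMap A₀ ↥(chartClosure A₀ (ModelField K₁ M) H) ϖ * b₁ +
            cchEv A₀ (ModelField K₁ M) H g * b₂ := by
    intro z hz
    obtain ⟨s, hs, b₁, hb₁, b₂, hb₂, hsz⟩ :=
      etale_point_chart A₀ (ModelField K₁ M) hinj ϖ hϖ H hHtr hGB g hgm hgirr hUN 𝔫' h𝔫' z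
        (Ideal.mem_comap.2 hz)
    exact ⟨s, fun h => hs (Ideal.mem_comap.2 h), ⟨b₁, hb₁⟩, ⟨b₂, hb₂⟩, Subtype.ext hsz⟩
  obtain ⟨-, hreg⟩ := cch_reg_of A₀ (ModelField K₁ M) ϖ x H (h4Num A₀) (h4Den A₀) hrel hHB _
    hvB hvQ 𝔫 h𝔫 (cchEv A₀ (ModelField K₁ M) H g) hREG'
  exact ⟨hHB, g, hgirr, Ideal.mem_comap.1 hg𝔫', hreg⟩

end LevelM

section LevelMq

variable (M q : ℕ) [NeZero M] [NeZero q]
variable (K₁ : Type) [Field K₁] [Algebra ℚ K₁] [FiniteDimensional ℚ K₁]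
  (A₀ : Type) [CommRing A₀] [IsDomain A₀] [IsDiscreteValuationRing A₀]
  [Algebra A₀ K₁] [IsFractionRing A₀ K₁]
  [Algebra A₀ (ModelField K₁ (M * q))] [IsScalarTower A₀ K₁ (ModelField K₁ (M * q))]

section Aux

variable [Algebra A₀ (ModelField K₁ M)] [IsScalarTower A₀ K₁ (ModelField K₁ M)]

/-- Auxiliary form of `simpleY_regular`, with the data of level `M` as parameters. -/
theorem simpleY_regular_aux (hq : q.Prime) (hq2 : q ≠ 2) (hqM : ¬ q ∣ M) (h4 : 4 ∣ M)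
    [CharZero (ModelField K₁ (M * q))] [CharZero (ModelField K₁ M)]
    (hqA : ¬ IsUnit ((q : ℕ) : A₀)) (ϖ : A₀) (hϖ : Irreducible ϖ)
    (x : ModelField K₁ (M * q)) (hx : (x : LaurentSeries K₁) = coeffEmb K₁ jq)
    (x' : ModelField K₁ M) (hx' : (x' : LaurentSeries K₁) = coeffEmb K₁ jq)
    (W : ModelField K₁ (M * q) ≃ₐ[K₁] ModelField K₁ (M * q)) (hW : IsAtkinLehnerModel K₁ M q W)
    (H : ModelField K₁ (M * q)) (hHS : (H : LaurentSeries K₁) = h4S K₁)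
    (H' : ModelField K₁ M) (hH'S : (H' : LaurentSeries K₁) = h4S K₁)
    (𝔪 : Ideal ↥(chartClosure A₀ (ModelField K₁ (M * q)) x)) (h𝔪 : 𝔪.IsMaximal)
    (hϖ𝔪 : algebraMap A₀ ↥(chartClosure A₀ (ModelField K₁ (M * q)) x) ϖ ∈ 𝔪)
    (s₀ : ↥(chartClosure A₀ (ModelField K₁ (M * q)) x))
    (hs₀ : W (s₀ : ModelField K₁ (M * q)) ∈ (gaussValM K₁ A₀ (M * q)).nonunits)
    (hs₀𝔪 : s₀ ∉ 𝔪) :
    ∃ ev : A₀[X] →+* ↥(chartClosure A₀ (ModelField K₁ (M * q)) x),
      (∀ F : A₀[X], ((ev F : ↥(chartClosure A₀ (ModelField K₁ (M * q)) x)) :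
        ModelField K₁ (M * q)) = aeval H F) ∧
      (∃ g : A₀[X], Irreducible (g.map (IsLocalRing.residue A₀)) ∧
        IsRegularAt A₀ (ModelField K₁ (M * q)) ϖ x 𝔪 (ev g)) ∧
      ∀ z : ↥(chartClosure A₀ (ModelField K₁ (M * q)) x),
        (z : ModelField K₁ (M * q)) ∈ (gaussValM K₁ A₀ (M * q)).nonunits →
        ∃ b : ↥(chartClosure A₀ (ModelField K₁ (M * q)) x),
          s₀ * z = algebraMap A₀ ↥(chartClosure A₀ (ModelField K₁ (M * q)) x) ϖ * b := by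
  classical
  haveI : NeZero (M * q) := ⟨Nat.mul_ne_zero (NeZero.ne M) (NeZero.ne q)⟩
  haveI : CharZero K₁ := charZero_of_injective_algebraMap (algebraMap ℚ K₁).injective
  have hinj : Function.Injective (algebraMap A₀ (ModelField K₁ (M * q))) := by
    rw [IsScalarTower.algebraMap_eq A₀ K₁ (ModelField K₁ (M * q))]
    exact (algebraMap K₁ (ModelField K₁ (M * q))).injective.comp (IsFractionRing.injective A₀ K₁)
  have hinj' : Function.Injective (algebraMap A₀ (ModelField K₁ M)) := by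
    rw [IsScalarTower.algebraMap_eq A₀ K₁ (ModelField K₁ M)]
    exact (algebraMap K₁ (ModelField K₁ M)).injective.comp (IsFractionRing.injective A₀ K₁)
  letI algT : Algebra (ModelField K₁ M) (ModelField K₁ (M * q)) :=
    (heckeAlphaBar K₁ M q).toRingHom.toAlgebra
  have halg : ∀ z' : ModelField K₁ M,
      algebraMap (ModelField K₁ M) (ModelField K₁ (M * q)) z' = heckeAlphaBar K₁ M q z' :=
    fun _ => rfl
  haveI towT : IsScalarTower A₀ (ModelField K₁ M) (ModelField K₁ (M * q)) :=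
    IsScalarTower.of_algebraMap_eq (fun a => by
      rw [halg, IsScalarTower.algebraMap_apply A₀ K₁ (ModelField K₁ (M * q)),
        IsScalarTower.algebraMap_apply A₀ K₁ (ModelField K₁ M), AlgHom.commutes])
  have hαx : algebraMap (ModelField K₁ M) (ModelField K₁ (M * q)) x' = x := by
    apply Subtype.ext
    rw [halg, coe_heckeAlphaBar, hx, hx']
  have hαH : algebraMap (ModelField K₁ M) (ModelField K₁ (M * q)) H' = H := by
    apply Subtype.ext
    rw [halg, coe_heckeAlphaBar, hHS, hH'S]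
  have hWx : ((W x : ModelField K₁ (M * q)) : LaurentSeries K₁)
      = coeffMap (Int.castRingHom K₁) (qExpand ℤ q (jqModC ℤ)) := by
    rw [← hαx, halg, hW.1, coe_heckeBetaBar, hx', coeffEmb_jq_int, coeffMap_qExpand]
  have hxtr := Fermat.Agent.H58.modelTranscendental_jq (M * q) K₁ A₀ x hx
  have hx'tr := Fermat.Agent.H58.modelTranscendental_jq M K₁ A₀ x' hx'
  have hfd := Fermat.Agent.H57.SS.modelFinite (M * q) K₁ A₀ x hx
  have hfd' := Fermat.Agent.H57.SS.modelFinite M K₁ A₀ x' hx'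
  have hιB : ∀ b ∈ chartClosure A₀ (ModelField K₁ M) x',
      algebraMap (ModelField K₁ M) (ModelField K₁ (M * q)) b
        ∈ chartClosure A₀ (ModelField K₁ (M * q)) x := by
    intro b hb
    rw [← hαx, Fermat.Agent.H87.KL.mem_chartClosure_iff]
    exact Fermat.Agent.H87.KL.IntX.map_tower ((Fermat.Agent.H87.KL.mem_chartClosure_iff _ _).1 hb)
  have hxx : x ∈ chartClosure A₀ (ModelField K₁ (M * q))
      (algebraMap (ModelField K₁ M) (ModelField K₁ (M * q)) x') := by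
    rw [hαx]
    have := etale_aeval_mem_chartClosure A₀ (ModelField K₁ (M * q)) x (X : A₀[X])
    rwa [aeval_X] at this
  have hint := ordRestrict_isIntegral x' x hιB hxx
  -- the point of level `M`
  haveI h𝔫max : (𝔪.comap (ordRestrict x' x hιB)).IsMaximal :=
    Ideal.isMaximal_comap_of_isIntegral_of_isMaximal' (ordRestrict x' x hιB) hint 𝔪
  have hϖ𝔫 : algebraMap A₀ ↥(chartClosure A₀ (ModelField K₁ M) x') ϖ ∈
      𝔪.comap (ordRestrict x' x hιB) := by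
    rw [Ideal.mem_comap, ordRestrict_algebraMap]
    exact hϖ𝔪
  obtain ⟨hHB, g, hgirr, hg𝔫, hREG⟩ := levelReg_h4_of M q hq hq2 hqM h4 K₁ A₀ hqA ϖ hϖ x' hx'
    H' hH'S (𝔪.comap (ordRestrict x' x hιB)) h𝔫max hϖ𝔫
  -- the generator
  obtain ⟨U, hUdef⟩ : ∃ U : ↥(chartClosure A₀ (ModelField K₁ M) x'),
      U = cchIncl A₀ (ModelField K₁ M) x' H' hHB (cchEv A₀ (ModelField K₁ M) H' g) := ⟨_, rfl⟩
  rw [← hUdef] at hg𝔫 hREG
  have hU𝔪 : ordRestrict x' x hιB U ∈ 𝔪 := Ideal.mem_comap.1 hg𝔫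
  have hREG2 : ∀ z : ↥(chartClosure A₀ (ModelField K₁ M) x'), ordRestrict x' x hιB z ∈ 𝔪 →
      ∃ s : ↥(chartClosure A₀ (ModelField K₁ M) x'), ordRestrict x' x hιB s ∉ 𝔪 ∧
        ∃ b₁ b₂ : ↥(chartClosure A₀ (ModelField K₁ M) x'),
          s * z = algebraMap A₀ ↥(chartClosure A₀ (ModelField K₁ M) x') ϖ * b₁ + U * b₂ := by
    intro z hz
    obtain ⟨s, hs, b₁, b₂, h⟩ := hREG z (Ideal.mem_comap.2 hz)
    exact ⟨s, fun h' => hs (Ideal.mem_comap.2 h'), b₁, b₂, h⟩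
  have hHfrac : ModelFracStatement M q := Fermat.Agent.H66.SS.modelFrac41 M q hq hqM
  have hGC' : ∀ z' ∈ gaussClosure A₀ (ModelField K₁ M) ϖ x',
      algebraMap (ModelField K₁ M) (ModelField K₁ (M * q)) z' ∈ gaussValM K₁ A₀ (M * q) := by
    intro z' hz'
    rw [halg, alpha_mem_gaussValM_iff]
    exact mem_gaussValM_of_mem_gaussClosure M hϖ x' hx' z' hz'
  have hQ' : ∀ z' : ModelField K₁ M,
      algebraMap (ModelField K₁ M) (ModelField K₁ (M * q)) z' ∈ gaussValM K₁ A₀ (M * q) →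
      z' ∈ gaussClosure A₀ (ModelField K₁ M) ϖ x' := by
    intro z' hz'
    rw [halg, alpha_mem_gaussValM_iff] at hz'
    exact mem_gaussClosure_of_mem_gaussValM M q hq hqM hqA hϖ x' hx' z' hz'
  have hFRAC : ∀ z ∈ gaussValM K₁ A₀ (M * q), ∃ z' : ModelField K₁ M,
      algebraMap (ModelField K₁ M) (ModelField K₁ (M * q)) z' ∈ gaussValM K₁ A₀ (M * q) ∧
      z - algebraMap (ModelField K₁ M) (ModelField K₁ (M * q)) z' ∈
        (gaussValM K₁ A₀ (M * q)).nonunits := by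
    intro z hz
    obtain ⟨z'', hz''V, hzz''⟩ := hHfrac K₁ A₀ hqA (z : LaurentSeries K₁)
      ((mem_gaussValM_iff z).1 hz)
    refine ⟨⟨z'', InV.mem hz''V⟩, ?_, ?_⟩
    · rw [halg, alpha_mem_gaussValM_iff, mem_gaussValM_iff]
      exact hz''V
    · rw [mem_nonunits_gaussValM_iff, halg]
      exact hzz''
  have hmain := ordPoint_isRegularAt_of hinj hinj' ϖ hϖ x x' hx'tr hfd' hιB hint
    (gaussValM K₁ A₀ (M * q)) (gaussValZero K₁ A₀ (M * q) W)
    (fun z h1 h2 => mem_gaussClosure_of_two M q hq hqM hqA hϖ x hx W hW z h1 h2)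
    (div_pi_mem_gaussValM hϖ) (div_pi_mem_gaussValZero W hϖ)
    (fun s hs => chartClosure_le_gaussValM x (jqModC ℤ) (hx.trans coeffEmb_jq_int) hs)
    (fun s hs => chartClosure_le_gaussValZero W x _ hWx hs)
    (pi_mem_nonunits_gaussValM hϖ) hGC' hQ' hFRAC
    hxtr 𝔪 h𝔪 hϖ𝔪 s₀ ((mem_nonunits_gaussValZero_iff W _).2 hs₀) hs₀𝔪 U hU𝔪 hREG2
  obtain ⟨hreg, hsep⟩ := hmain
  -- the evaluation map
  refine ⟨(ordRestrict x' x hιB).comp
    ((cchIncl A₀ (ModelField K₁ M) x' H' hHB).comp (cchEv A₀ (ModelField K₁ M) H')), ?_,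
    ⟨g, hgirr, ?_⟩, hsep⟩
  · intro F
    show algebraMap (ModelField K₁ M) (ModelField K₁ (M * q)) (aeval H' F) = aeval H F
    rw [← hαH]
    exact (Polynomial.aeval_algebraMap_apply (ModelField K₁ (M * q)) H' F).symm
  · rw [hUdef] at hreg
    exact hreg

end Aux

/-- **Level `M q`, points on `V_∞` only, exposed parameter**: `(ϖ, g(H))` are regular parameters
at `𝔪` for some `g ∈ A₀[X]` with irreducible reduction, the polynomials in `H` lie in `B(j)`,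
and the centre of `V_∞` is generated by `ϖ` at `𝔪`. -/
theorem simpleY_regular (hq : q.Prime) (hq2 : q ≠ 2) (hqM : ¬ q ∣ M) (h4 : 4 ∣ M)
    [CharZero (ModelField K₁ (M * q))]
    (hqA : ¬ IsUnit ((q : ℕ) : A₀)) (ϖ : A₀) (hϖ : Irreducible ϖ)
    (x : ModelField K₁ (M * q)) (hx : (x : LaurentSeries K₁) = coeffEmb K₁ jq)
    (W : ModelField K₁ (M * q) ≃ₐ[K₁] ModelField K₁ (M * q)) (hW : IsAtkinLehnerModel K₁ M q W)
    (H : ModelField K₁ (M * q)) (hHS : (H : LaurentSeries K₁) = h4S K₁)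
    (𝔪 : Ideal ↥(chartClosure A₀ (ModelField K₁ (M * q)) x)) (h𝔪 : 𝔪.IsMaximal)
    (hϖ𝔪 : algebraMap A₀ ↥(chartClosure A₀ (ModelField K₁ (M * q)) x) ϖ ∈ 𝔪)
    (s₀ : ↥(chartClosure A₀ (ModelField K₁ (M * q)) x))
    (hs₀ : W (s₀ : ModelField K₁ (M * q)) ∈ (gaussValM K₁ A₀ (M * q)).nonunits)
    (hs₀𝔪 : s₀ ∉ 𝔪) :
    ∃ ev : A₀[X] →+* ↥(chartClosure A₀ (ModelField K₁ (M * q)) x),
      (∀ F : A₀[X], ((ev F : ↥(chartClosure A₀ (ModelField K₁ (M * q)) x)) :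
        ModelField K₁ (M * q)) = aeval H F) ∧
      (∃ g : A₀[X], Irreducible (g.map (IsLocalRing.residue A₀)) ∧
        IsRegularAt A₀ (ModelField K₁ (M * q)) ϖ x 𝔪 (ev g)) ∧
      ∀ z : ↥(chartClosure A₀ (ModelField K₁ (M * q)) x),
        (z : ModelField K₁ (M * q)) ∈ (gaussValM K₁ A₀ (M * q)).nonunits →
        ∃ b : ↥(chartClosure A₀ (ModelField K₁ (M * q)) x),
          s₀ * z = algebraMap A₀ ↥(chartClosure A₀ (ModelField K₁ (M * q)) x) ϖ * b := by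
  classical
  letI algE' : Algebra A₀ (ModelField K₁ M) :=
    ((algebraMap K₁ (ModelField K₁ M)).comp (algebraMap A₀ K₁)).toAlgebra
  haveI towE' : IsScalarTower A₀ K₁ (ModelField K₁ M) :=
    IsScalarTower.of_algebraMap_eq (fun _ => rfl)
  haveI : CharZero K₁ := charZero_of_injective_algebraMap (algebraMap ℚ K₁).injective
  haveI : CharZero (ModelField K₁ M) :=
    charZero_of_injective_algebraMap (algebraMap K₁ (ModelField K₁ M)).injective
  have hjq : jq ∈ modularFunctionFieldFull M := by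
    have := jqd_mem_full M (one_dvd M)
    rwa [qExpand_one_apply] at this
  exact simpleY_regular_aux M q K₁ A₀ hq hq2 hqM h4 hqA ϖ hϖ x hx
    ⟨coeffEmb K₁ jq, coeffEmb_mem_laurentBaseChange K₁ hjq⟩ rfl W hW H hHS
    ⟨h4S K₁, h4S_mem_laurentBaseChange K₁ M h4⟩ rfl 𝔪 h𝔪 hϖ𝔪 s₀ hs₀ hs₀𝔪

end LevelMq

end Fermat.Agent.H95.SS2

end
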