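import Fermat.Agent.H95.SS2.SimpleYDefs
import Fermat.Agent.H95.SS2.SimpleYModel
import Fermat.Agent.H66.SS.Frac41

/-!
# P-SS2 row 1048 (SS2-C5e SIMPLE-Y): the row theorem (helper95)

`simpleY (hq : q.Prime) (hq2 : q ≠ 2) (hqM : ¬ q ∣ M) (h4 : 4 ∣ M) : SimpleYStatement M q` and
`simpleYGen … : SimpleYGenStatement M q`, UNCONDITIONAL.

Proof.  At a closed point `𝔪 ∋ q` of level `M q` which does not lie on `V_0`, `(q, g(H))` are
regular parameters, `g ∈ A₀[X]` with irreducible reduction (`simpleY_regular`: level `M` is étale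
over the `H`-line off the cusps, and `V_∞` is birational to level `M`).  On `V_∞` we have
`H_q ≡ H ^ q`, hence `Y = H - H_q ^ q ≡ -(H ^ (q ^ 2) - H)` modulo the centre of `V_∞`, which is
`q B_𝔪`.  The polynomial `X ^ (q ^ 2) - X` is separable modulo `q`: either it is prime to `g`
(and `Y` is a unit at `𝔪`) or it is `g h` with `h` prime to `g` (and `Y = unit · g(H) + q ·…`,
a regular parameter by `isRegularAt_of_unit_mul`).
-/

set_option autoImplicit false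
set_option linter.style.haveILetI false
set_option linter.unusedSectionVars false
set_option linter.unusedVariables false
set_option maxHeartbeats 1000000

noncomputable section

open Polynomial

namespace Fermat.Agent.H95.SS2

open ModularCurve AlgebraicCurve
open Fermat.Agent.H22.KL Fermat.Agent.H45 Fermat.Agent.H7.SS Fermat.Agent.H48.QExp
open Fermat.Agent.H82.SS Fermat.Agent.H8.SS
open Fermat.Agent.H41.SS Fermat.Agent.H7.SS2

/-- **SIMPLE-Y, general form** (row 1048), unconditional. -/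
theorem simpleYGen (M q : ℕ) [NeZero M] [NeZero q] (hq : q.Prime) (hq2 : q ≠ 2)
    (hqM : ¬ q ∣ M) (h4 : 4 ∣ M) : SimpleYGenStatement M q := by
  intro K₁ _ _ _ A₀ _ _ _ _ _ _ _ _ hqirr x hx W hW H Hq hH hHq 𝔪 h𝔪 hq𝔪 hnot Y e R hY he
  classical
  have hqA : ¬ IsUnit ((q : ℕ) : A₀) := hqirr.not_isUnit
  haveI h𝔪p : 𝔪.IsPrime := h𝔪.isPrime
  -- the point does not lie on `V_0`
  unfold Fermat.Agent.H11.SS2.Through at hnot
  push Not at hnot
  obtain ⟨s₀, hs₀, hs₀𝔪⟩ := hnot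
  have hs₀' : W (s₀ : ModelField K₁ (M * q)) ∈ (gaussValM K₁ A₀ (M * q)).nonunits :=
    (mem_nonunits_vZero_iff W _).1 hs₀
  have hHS : (H : LaurentSeries K₁) = h4S K₁ := by
    rw [hH, Fermat.Agent.H98.SS.coeffEmb_h4S]
  obtain ⟨ev, hevc, ⟨g, hgirr, hreg⟩, hsep⟩ := simpleY_regular M q K₁ A₀ hq hq2 hqM h4 hqA _
    hqirr x hx W hW H hHS 𝔪 h𝔪 hq𝔪 s₀ hs₀' hs₀𝔪
  have hevC : ev (C ((q : ℕ) : A₀)) =
      algebraMap A₀ ↥(chartClosure A₀ (ModelField K₁ (M * q)) x) ((q : ℕ) : A₀) := by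
    apply Subtype.ext
    rw [hevc, aeval_C]
    rfl
  -- the Frobenius congruence
  have hHint : (H : LaurentSeries K₁) = coeffMap (Int.castRingHom K₁) h4Z := hHS
  have hHqint : (Hq : LaurentSeries K₁) = qExpand K₁ q (coeffMap (Int.castRingHom K₁) h4Z) := by
    rw [hHq, Fermat.Agent.H98.SS.coeffEmb_h4S, h4S]
  have hXV : Hq - H ^ q ∈ (vInf K₁ A₀ (M * q)).nonunits :=
    mem_nonunits_vInf_X M q K₁ A₀ hqA W hW hq h4Z H Hq hHint hHqint
  have hHV : H ∈ gaussValM K₁ A₀ (M * q) := int_mem_gaussValM H h4Z hHint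
  have hHqV : Hq ∈ gaussValM K₁ A₀ (M * q) :=
    int_mem_gaussValM Hq (qExpand ℤ q h4Z) (by rw [hHqint, coeffMap_qExpand])
  set z : ↥(chartClosure A₀ (ModelField K₁ (M * q)) x) := Y + ev (X ^ (q ^ 2) - X) with hz
  have hzc : (z : ModelField K₁ (M * q)) = (H ^ q) ^ q - Hq ^ q := by
    rw [hz, Subalgebra.coe_add, hevc, hY, map_sub, map_pow, aeval_X, ← pow_mul, ← sq]
    ring
  have hzV : (z : ModelField K₁ (M * q)) ∈ (gaussValM K₁ A₀ (M * q)).nonunits := by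
    obtain ⟨c, hc⟩ := sub_dvd_pow_sub_pow
      (⟨H ^ q, pow_mem hHV q⟩ : ↥(gaussValM K₁ A₀ (M * q))) ⟨Hq, hHqV⟩ q
    have h1 : (H ^ q) ^ q - Hq ^ q = (c : ModelField K₁ (M * q)) * (H ^ q - Hq) := by
      have h0 : (H ^ q) ^ q - Hq ^ q = (H ^ q - Hq) * (c : ModelField K₁ (M * q)) :=
        congrArg Subtype.val hc
      exact h0.trans (mul_comm _ _)
    rw [hzc, h1]
    refine Fermat.Agent.H31.SS.mul_mem_nonunits c.2 ?_
    have h2 : H ^ q - Hq ∈ (vInf K₁ A₀ (M * q)).nonunits := by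
      rw [ValuationSubring.mem_nonunits_iff] at hXV ⊢
      rw [← neg_sub, Valuation.map_neg]
      exact hXV
    exact h2
  obtain ⟨b, hb⟩ := hsep z hzV
  have hz𝔪 : z ∈ 𝔪 := by
    have h1 : s₀ * z ∈ 𝔪 := by
      rw [hb]
      exact 𝔪.mul_mem_right _ hq𝔪
    exact (h𝔪p.mem_or_mem h1).resolve_left hs₀𝔪
  rcases sy_poly_dichotomy hqirr q hq hqA g hgirr with
    ⟨a, b', c, habc⟩ | ⟨h, c₁, a, b', c₂, hP, hab⟩
  · left
    intro hmem
    have hY𝔪 : Y ∈ 𝔪 :=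
      (h𝔪p.mem_or_mem ((sub_pi_mul_mem_iff hq𝔪 (e * Y) R).1 hmem)).resolve_left he
    have hP𝔪 : ev (X ^ (q ^ 2) - X) ∈ 𝔪 := by
      have := 𝔪.sub_mem hz𝔪 hY𝔪
      rwa [hz, add_sub_cancel_left] at this
    have h1 := congrArg ev habc
    rw [map_add, map_mul, map_mul, map_add, map_one, map_mul, hevC] at h1
    apply h𝔪.ne_top
    rw [Ideal.eq_top_iff_one]
    have e1 : (1 : ↥(chartClosure A₀ (ModelField K₁ (M * q)) x)) =
        ev a * ev g + ev b' * ev (X ^ (q ^ 2) - X) -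
          algebraMap A₀ ↥(chartClosure A₀ (ModelField K₁ (M * q)) x) ((q : ℕ) : A₀) * ev c := by
      rw [h1]
      ring
    rw [e1]
    exact 𝔪.sub_mem (𝔪.add_mem (𝔪.mul_mem_left _ hreg.1) (𝔪.mul_mem_left _ hP𝔪))
      (𝔪.mul_mem_right _ hq𝔪)
  · right
    have h1 := congrArg ev hP
    have h2 := congrArg ev hab
    rw [map_add, map_mul, map_mul, hevC] at h1
    rw [map_add, map_mul, map_mul, map_add, map_one, map_mul, hevC] at h2
    have hh𝔪 : ev h ∉ 𝔪 := by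
      intro hmem
      apply h𝔪.ne_top
      rw [Ideal.eq_top_iff_one]
      have e1 : (1 : ↥(chartClosure A₀ (ModelField K₁ (M * q)) x)) =
          ev a * ev g + ev b' * ev h -
            algebraMap A₀ ↥(chartClosure A₀ (ModelField K₁ (M * q)) x) ((q : ℕ) : A₀) * ev c₂ := by
        rw [h2]
        ring
      rw [e1]
      exact 𝔪.sub_mem (𝔪.add_mem (𝔪.mul_mem_left _ hreg.1) (𝔪.mul_mem_left _ hmem))
        (𝔪.mul_mem_right _ hq𝔪)
    refine isRegularAt_of_unit_mul h𝔪p hq𝔪 hreg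
      ⟨s₀, -(e * s₀ * ev h), e * (b - s₀ * ev c₁) - s₀ * R, hs₀𝔪, ?_, ?_⟩
    · intro hmem
      have := 𝔪.neg_mem hmem
      rw [neg_neg] at this
      rcases h𝔪p.mem_or_mem this with h3 | h3
      · exact (h𝔪p.mem_or_mem h3).elim he hs₀𝔪
      · exact hh𝔪 h3
    · have hYz : Y = z - ev (X ^ (q ^ 2) - X) := by
        rw [hz]
        ring
      rw [hYz, h1]
      linear_combination e * hb

/-- **SIMPLE-Y** (row 1048), unconditional: `Y = H - H_q ^ q` is a unit or a regular parameter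
at every closed point of the special fibre of level `M q` which lies on `V_∞` only. -/
theorem simpleY (M q : ℕ) [NeZero M] [NeZero q] (hq : q.Prime) (hq2 : q ≠ 2)
    (hqM : ¬ q ∣ M) (h4 : 4 ∣ M) : SimpleYStatement M q := by
  intro K₁ _ _ _ A₀ _ _ _ _ _ _ _ _ hqirr x hx W hW H Hq hH hHq 𝔪 h𝔪 hq𝔪 hnot Y hY
  have h1 : (1 : ↥(chartClosure A₀ (ModelField K₁ (M * q)) x)) ∉ 𝔪 :=
    fun h => h𝔪.ne_top ((Ideal.eq_top_iff_one _).2 h)
  have h := simpleYGen M q hq hq2 hqM h4 K₁ A₀ hqirr x hx W hW H Hq hH hHq 𝔪 h𝔪 hq𝔪 hnot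
    Y 1 0 hY h1
  rw [one_mul, mul_zero, sub_zero] at h
  exact h

end Fermat.Agent.H95.SS2

end
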