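import Fermat.Agent.H41.SS.TubeChart

/-!
# P-SS2 row 1048 (SS2-C5e): change of regular parameter (helper95, abstract, chart language)

`A` a discrete valuation ring, `E` a field over `A`, `y ∈ E` a chart, `B = chartClosure A E y`,
`𝔪` a prime ideal of `B` containing `ϖ`.

* `isRegularAt_of_mem_span` : if `(ϖ, u₀)` are regular parameters at `𝔪`
  (`Fermat.Agent.H41.SS.IsRegularAt`), `u ∈ 𝔪` and `u₀ ∈ (ϖ, u) B_𝔪`
  (`s u₀ = ϖ c + u e` with `s ∉ 𝔪`), then `(ϖ, u)` are regular parameters at `𝔪`.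
* `isRegularAt_of_unit_mul` : the form `s u = e u₀ + ϖ c` with `s, e ∉ 𝔪`.
* `isRegularAt_sub_pi_mul` : `(ϖ, u)` regular ⟹ `(ϖ, u - ϖ r)` regular.
-/

set_option autoImplicit false
set_option linter.unusedSectionVars false

noncomputable section

namespace Fermat.Agent.H95.SS2

open Fermat.Agent.H22.KL Fermat.Agent.H41.SS

section ChangeParam

variable {A : Type} [CommRing A] [IsDomain A] [IsDiscreteValuationRing A]
variable {E : Type} [Field E] [Algebra A E] [CharZero E]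

/-- **Change of parameter.**  If `(ϖ, u₀)` are regular parameters at the prime `𝔪 ∋ ϖ`, `u ∈ 𝔪`
and `u₀ ∈ (ϖ, u) B_𝔪`, then `(ϖ, u)` are regular parameters at `𝔪`. -/
theorem isRegularAt_of_mem_span {ϖ : A} {y : E} {𝔪 : Ideal ↥(chartClosure A E y)}
    (h𝔪 : 𝔪.IsPrime) {u₀ u : ↥(chartClosure A E y)}
    (h₀ : IsRegularAt A E ϖ y 𝔪 u₀) (hu : u ∈ 𝔪)
    (hspan : ∃ s, s ∉ 𝔪 ∧ ∃ c e : ↥(chartClosure A E y),
      s * u₀ = algebraMap A ↥(chartClosure A E y) ϖ * c + u * e) :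
    IsRegularAt A E ϖ y 𝔪 u := by
  obtain ⟨-, hREG, hTF⟩ := h₀
  obtain ⟨s, hs, c, e, hsu⟩ := hspan
  refine ⟨hu, ?_, ?_⟩
  · intro z hz
    obtain ⟨s', hs', b₁, b₂, hsz⟩ := hREG z hz
    refine ⟨s * s', fun h => (h𝔪.mem_or_mem h).elim hs hs', s * b₁ + c * b₂, e * b₂, ?_⟩
    linear_combination s * hsz + b₂ * hsu
  · rintro n b ⟨b', hb'⟩
    -- `(s u₀)^n ≡ (u e)^n` modulo `ϖ`
    have hdvd : algebraMap A ↥(chartClosure A E y) ϖ ∣ (s * u₀) ^ n - (u * e) ^ n := by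
      refine dvd_trans ?_ (sub_dvd_pow_sub_pow (s * u₀) (u * e) n)
      exact ⟨c, by rw [hsu]; ring⟩
    obtain ⟨d, hd⟩ := hdvd
    have h1 : ∃ b'' : ↥(chartClosure A E y),
        u₀ ^ n * (s ^ n * b) = algebraMap A ↥(chartClosure A E y) ϖ * b'' := by
      refine ⟨d * b + e ^ n * b', ?_⟩
      have e1 : u₀ ^ n * (s ^ n * b) = ((s * u₀) ^ n - (u * e) ^ n) * b + e ^ n * (u ^ n * b) := by
        ring
      rw [e1, hd, hb']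
      ring
    obtain ⟨s', hs', b'', hb''⟩ := hTF n (s ^ n * b) h1
    refine ⟨s' * s ^ n, fun h => (h𝔪.mem_or_mem h).elim hs'
      (fun h' => hs (h𝔪.mem_of_pow_mem n h')), b'', ?_⟩
    rw [mul_assoc, hb'']

/-- **Change of parameter**, the form `s u = e u₀ + ϖ c` with `s, e ∉ 𝔪`. -/
theorem isRegularAt_of_unit_mul {ϖ : A} {y : E} {𝔪 : Ideal ↥(chartClosure A E y)}
    (h𝔪 : 𝔪.IsPrime) (hϖ𝔪 : algebraMap A ↥(chartClosure A E y) ϖ ∈ 𝔪)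
    {u₀ u : ↥(chartClosure A E y)}
    (h₀ : IsRegularAt A E ϖ y 𝔪 u₀)
    (hrel : ∃ s e c : ↥(chartClosure A E y), s ∉ 𝔪 ∧ e ∉ 𝔪 ∧
      s * u = e * u₀ + algebraMap A ↥(chartClosure A E y) ϖ * c) :
    IsRegularAt A E ϖ y 𝔪 u := by
  obtain ⟨s, e, c, hs, he, hsu⟩ := hrel
  have hu : u ∈ 𝔪 := by
    have h1 : s * u ∈ 𝔪 := by
      rw [hsu]
      exact 𝔪.add_mem (𝔪.mul_mem_left _ h₀.1) (𝔪.mul_mem_right _ hϖ𝔪)
    exact (h𝔪.mem_or_mem h1).resolve_left hs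
  refine isRegularAt_of_mem_span h𝔪 h₀ hu ⟨e, he, -c, s, ?_⟩
  linear_combination -hsu

/-- `(ϖ, u)` regular ⟹ `(ϖ, u - ϖ r)` regular. -/
theorem isRegularAt_sub_pi_mul {ϖ : A} {y : E} {𝔪 : Ideal ↥(chartClosure A E y)}
    (h𝔪 : 𝔪.IsPrime) (hϖ𝔪 : algebraMap A ↥(chartClosure A E y) ϖ ∈ 𝔪)
    {u : ↥(chartClosure A E y)} (h₀ : IsRegularAt A E ϖ y 𝔪 u)
    (r : ↥(chartClosure A E y)) :
    IsRegularAt A E ϖ y 𝔪 (u - algebraMap A ↥(chartClosure A E y) ϖ * r) := by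
  refine isRegularAt_of_unit_mul h𝔪 hϖ𝔪 h₀ ⟨1, 1, -r, ?_, ?_, by ring⟩ <;>
    exact fun h => h𝔪.ne_top ((Ideal.eq_top_iff_one _).2 h)

/-- `u - ϖ r ∈ 𝔪 ↔ u ∈ 𝔪` for `ϖ ∈ 𝔪`. -/
theorem sub_pi_mul_mem_iff {ϖ : A} {y : E} {𝔪 : Ideal ↥(chartClosure A E y)}
    (hϖ𝔪 : algebraMap A ↥(chartClosure A E y) ϖ ∈ 𝔪) (u r : ↥(chartClosure A E y)) :
    u - algebraMap A ↥(chartClosure A E y) ϖ * r ∈ 𝔪 ↔ u ∈ 𝔪 := by
  constructor
  · intro h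
    have := 𝔪.add_mem h (𝔪.mul_mem_right r hϖ𝔪)
    rwa [sub_add_cancel] at this
  · intro h
    exact 𝔪.sub_mem h (𝔪.mul_mem_right r hϖ𝔪)

end ChangeParam

end Fermat.Agent.H95.SS2

end
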