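import Fermat.Agent.H22.SS.ChartChange
import Fermat.Agent.H95.SS2.ChangeParam

/-!
# P-SS2 row 1048 (SS2-C5e SIMPLE-Y): the abstract parts (helper95)

* `ordPoint_isRegularAt_of` : the abstract ordinary point theorem of helper41
  (`Fermat.Agent.H41.SS.ordPoint_isRegularAt`) with the regular parameter EXPOSED: if `U ∈ B(x')`
  generates the maximal ideal of the point of level `M` together with `ϖ`, then `(ϖ, U)` are
  regular parameters at the point of level `M q`.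
* `cch_reg_of` : the change of chart of helper22 (`Fermat.Agent.H22.SS.cch_reg`) with the
  generator exposed.
* `sy_poly_dichotomy` : for `g ∈ A[X]` with irreducible reduction modulo `ϖ` (residue
  characteristic `q`), either `g` is prime to `X ^ (q ^ 2) - X` modulo `ϖ`, or
  `X ^ (q ^ 2) - X ≡ g h` with `h` prime to `g` modulo `ϖ` (`X ^ (q ^ 2) - X` is separable).
-/

set_option autoImplicit false
set_option linter.style.haveILetI false
set_option linter.unusedSectionVars false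
set_option linter.unusedVariables false

noncomputable section

open Polynomial

namespace Fermat.Agent.H95.SS2

open Fermat.Agent.H91 Fermat.Agent.H91.KLNorm
open Fermat.Agent.H22.KL Fermat.Agent.H45 Fermat.Agent.H41.SS Fermat.Agent.H22.SS
open Fermat.Agent.H87.KL (evX IntX GC)
open Fermat.Agent.H67.KLConn (PiDvd)

/-! ### The ordinary point theorem with an exposed parameter -/

section Tower

variable {A : Type} [CommRing A] [IsDomain A] [IsDiscreteValuationRing A]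
variable {E' E : Type} [Field E'] [Field E] [Algebra A E'] [Algebra A E]
  [CharZero E'] [CharZero E] [Algebra E' E] [IsScalarTower A E' E]

/-- **Ordinary point theorem, exposed parameter** (after helper41). -/
theorem ordPoint_isRegularAt_of
    (hinj : Function.Injective (algebraMap A E)) (hinj' : Function.Injective (algebraMap A E'))
    (ϖ : A) (hϖ : Irreducible ϖ)
    (x : E) (x' : E') (hx' : Transcendental A x')
    (hfd' : ∃ n : ℕ, Nonempty (Module.Basis (Fin n) (chartField A E' x') E'))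
    (hιB : ∀ b ∈ chartClosure A E' x', algebraMap E' E b ∈ chartClosure A E x)
    (hint : (ordRestrict x' x hιB).IsIntegral)
    (V₁ V₂ : ValuationSubring E)
    (hC : ∀ z : E, z ∈ V₁ → z ∈ V₂ → z ∈ gaussClosure A E ϖ x)
    (hϖ₁ : ∀ z ∈ V₁.nonunits, z / algebraMap A E ϖ ∈ V₁)
    (hϖ₂ : ∀ z ∈ V₂.nonunits, z / algebraMap A E ϖ ∈ V₂)
    (hB₁ : ∀ s ∈ chartClosure A E x, s ∈ V₁) (hB₂ : ∀ s ∈ chartClosure A E x, s ∈ V₂)
    (hπ₁ : algebraMap A E ϖ ∈ V₁.nonunits)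
    (hGC' : ∀ z' ∈ gaussClosure A E' ϖ x', algebraMap E' E z' ∈ V₁)
    (hQ' : ∀ z' : E', algebraMap E' E z' ∈ V₁ → z' ∈ gaussClosure A E' ϖ x')
    (hFRAC : ∀ z ∈ V₁, ∃ z' : E', algebraMap E' E z' ∈ V₁ ∧ z - algebraMap E' E z' ∈ V₁.nonunits)
    (hx : Transcendental A x)
    (𝔪 : Ideal ↥(chartClosure A E x)) (h𝔪 : 𝔪.IsMaximal)
    (hϖ𝔪 : algebraMap A ↥(chartClosure A E x) ϖ ∈ 𝔪)
    (s₀ : ↥(chartClosure A E x)) (hs₀ : (s₀ : E) ∈ V₂.nonunits) (hs₀𝔪 : s₀ ∉ 𝔪)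
    (U : ↥(chartClosure A E' x')) (hU𝔫 : ordRestrict x' x hιB U ∈ 𝔪)
    (hREG : ∀ z : ↥(chartClosure A E' x'), ordRestrict x' x hιB z ∈ 𝔪 →
      ∃ s : ↥(chartClosure A E' x'), ordRestrict x' x hιB s ∉ 𝔪 ∧
        ∃ b₁ b₂ : ↥(chartClosure A E' x'),
          s * z = algebraMap A ↥(chartClosure A E' x') ϖ * b₁ + U * b₂) :
    IsRegularAt A E ϖ x 𝔪 (ordRestrict x' x hιB U) ∧
      ∀ z : ↥(chartClosure A E x), (z : E) ∈ V₁.nonunits →
        ∃ b : ↥(chartClosure A E x), s₀ * z = algebraMap A ↥(chartClosure A E x) ϖ * b := by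
  classical
  haveI := chartClosure_isNoetherianRing A E' hinj' ϖ hϖ x' hx' hfd'
  haveI h𝔪p : 𝔪.IsPrime := h𝔪.isPrime
  set ιB := ordRestrict x' x hιB with hιBdef
  set πB' : ↥(chartClosure A E' x') := algebraMap A ↥(chartClosure A E' x') ϖ with hπB'
  have hιπ : ιB πB' = algebraMap A ↥(chartClosure A E x) ϖ := ordRestrict_algebraMap x' x hιB ϖ
  -- the point of level `M`
  set 𝔫 : Ideal ↥(chartClosure A E' x') := 𝔪.comap ιB with h𝔫
  haveI h𝔫max : 𝔫.IsMaximal := Ideal.isMaximal_comap_of_isIntegral_of_isMaximal' ιB hint 𝔪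
  have hπ𝔫 : πB' ∈ 𝔫 := by
    rw [h𝔫, Ideal.mem_comap, hιπ]
    exact hϖ𝔪
  -- the component
  have hRV : ∀ r : ↥(chartClosure A E x), algebraMap ↥(chartClosure A E x) E r ∈ V₁ :=
    fun r => hB₁ _ r.2
  set 𝔮 : Ideal ↥(chartClosure A E x) := regTubeCentre V₁ hRV with h𝔮
  haveI h𝔮p : 𝔮.IsPrime := regTubeCentre_isPrime V₁ hRV
  have hmem𝔮 : ∀ r : ↥(chartClosure A E x), r ∈ 𝔮 ↔ (r : E) ∈ V₁.nonunits := fun r =>
    mem_regTubeCentre V₁ hRV r
  have hπ𝔮 : ιB πB' ∈ 𝔮 := by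
    rw [hιπ, hmem𝔮]
    exact hπ₁
  -- (SEP), global form
  have hSEP₀ : ∀ z : ↥(chartClosure A E x), (z : E) ∈ V₁.nonunits →
      ∃ b : ↥(chartClosure A E x), s₀ * z = algebraMap A ↥(chartClosure A E x) ϖ * b := by
    intro z hz
    obtain ⟨r, hr, hsz⟩ := Fermat.Agent.H31.SS.piDvd_mul_of_mem_centres hinj ϖ hϖ x hx V₁ V₂
      hC hϖ₁ hϖ₂ hB₁ hB₂ s₀ z hs₀ hz
    refine ⟨⟨r, hr⟩, ?_⟩
    apply Subtype.ext
    rw [pow_one, Algebra.smul_def] at hsz
    exact hsz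
  have hSEP : ∀ z ∈ 𝔮, ∃ s, s ∉ 𝔪 ∧ ∃ b : ↥(chartClosure A E x), s * z = ιB πB' * b := by
    intro z hz
    obtain ⟨b, hb⟩ := hSEP₀ z ((hmem𝔮 z).1 hz)
    exact ⟨s₀, hs₀𝔪, b, by rw [hιπ]; exact hb⟩
  refine ⟨?_, hSEP₀⟩
  -- a monic polynomial in the point
  obtain ⟨g, hgm, -, hg𝔫⟩ := ordPoint_exists_monic A E' ϖ hϖ x' 𝔫 h𝔫max hπ𝔫
  have hgunit : algebraMap E' E (aeval x' g) ∉ V₁.nonunits := by
    refine ordPoint_unit ϖ x' V₁ hGC' _ (Fermat.Agent.H87.KL.aeval_mem_chartRing x' g) ?_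
    rw [Fermat.Agent.H87.KL.piDvd_aeval_iff hx']
    exact not_C_dvd_of_monic hϖ hgm
  -- (INJ), element form
  have hINJ : ∀ b : ↥(chartClosure A E' x'), ιB b ∈ 𝔮 →
      ∃ r : ↥(chartClosure A E' x'), b = πB' * r := by
    intro b hb
    obtain ⟨r, hr, hbr⟩ := ordPoint_inj hinj' ϖ hϖ x' hx' V₁ hϖ₁ hQ' (b : E') b.2
      ((hmem𝔮 _).1 hb)
    refine ⟨⟨r, hr⟩, Subtype.ext ?_⟩
    rw [pow_one, Algebra.smul_def] at hbr
    exact hbr
  -- `U` is not zero on the component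
  have hU𝔮 : ιB U ∉ 𝔮 := by
    intro hU
    obtain ⟨r, hr⟩ := hINJ U hU
    obtain ⟨s, hs, b₁, b₂, hsg⟩ := hREG _ hg𝔫
    have h1 : ιB (s * ⟨aeval x' g, etale_aeval_mem_chartClosure A E' x' g⟩) ∈ 𝔮 := by
      rw [hsg, hr]
      have e1 : πB' * b₁ + πB' * r * b₂ = πB' * (b₁ + r * b₂) := by ring
      rw [e1, map_mul]
      exact Ideal.mul_mem_right _ _ hπ𝔮
    rw [map_mul] at h1
    rcases h𝔮p.mem_or_mem h1 with h2 | h2
    · obtain ⟨r', hr'⟩ := hINJ s h2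
      apply hs
      rw [hr', map_mul]
      exact Ideal.mul_mem_right _ _ (by rw [hιπ]; exact hϖ𝔪)
    · exact hgunit ((hmem𝔮 _).1 h2)
  -- (FRAC)
  have hFR : ∀ z ∈ 𝔪, ∃ b₁ b₂ : ↥(chartClosure A E' x'), ιB b₂ ∉ 𝔮 ∧
      z * ιB b₂ - ιB b₁ ∈ 𝔮 := by
    intro z _
    obtain ⟨z', hz'V, hzz'⟩ := hFRAC (z : E) (hB₁ _ z.2)
    obtain ⟨h, hh, hnd, hhz⟩ := hQ' z' hz'V
    have hhB : h ∈ chartClosure A E' x' := by
      obtain ⟨H, rfl⟩ := (Fermat.Agent.H87.KL.mem_chartRing_iff x' h).1 hh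
      exact etale_aeval_mem_chartClosure A E' x' H
    refine ⟨⟨h * z', hhz⟩, ⟨h, hhB⟩, ?_, ?_⟩
    · rw [hmem𝔮]
      exact ordPoint_unit ϖ x' V₁ hGC' h hh hnd
    · rw [hmem𝔮]
      have e1 : ((z * ιB ⟨h, hhB⟩ - ιB ⟨h * z', hhz⟩ : ↥(chartClosure A E x)) : E)
          = algebraMap E' E h * ((z : E) - algebraMap E' E z') := by
        rw [Subalgebra.coe_sub, Subalgebra.coe_mul, hιBdef, ordRestrict_coe, ordRestrict_coe,
          map_mul]
        ring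
      rw [e1]
      exact Fermat.Agent.H31.SS.mul_mem_nonunits (hB₁ _ (hιB h hhB)) hzz'
  -- transfer
  have hπ𝔪 : ιB πB' ∈ 𝔪 := by rw [hιπ]; exact hϖ𝔪
  have hreg := ordReg_transfer_reg ιB 𝔪 𝔮 πB' U hπ𝔪 hπ𝔮 hU𝔫 hU𝔮 hSEP hFR
    (fun z hz => hREG z hz)
  have htf := ordReg_transfer_tf 𝔪 𝔮 (ιB πB') (ιB U) hπ𝔮 hU𝔮 hSEP
  rw [hιπ] at hreg htf
  exact ⟨hU𝔫, hreg, htf⟩

end Tower

/-! ### Change of chart with an exposed generator -/

section Chart

variable (A : Type) [CommRing A] [IsDomain A] [IsDiscreteValuationRing A]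
variable (E : Type) [Field E] [Algebra A E] [CharZero E]

/-- **Change of chart, exposed generator** (after helper22's `cch_reg`). -/
theorem cch_reg_of (ϖ : A) (x H : E) (P Q : A[X])
    (hrel : x * aeval H Q = aeval H P)
    (hH : H ∈ chartClosure A E x)
    (v : E) (hv : v ∈ chartClosure A E x) (hvQ : v * aeval H Q = 1)
    (𝔫 : Ideal ↥(chartClosure A E x)) (h𝔫 : 𝔫.IsMaximal)
    (U' : ↥(chartClosure A E H))
    (hgen : ∀ z : ↥(chartClosure A E H), cchIncl A E x H hH z ∈ 𝔫 →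
      ∃ s : ↥(chartClosure A E H), cchIncl A E x H hH s ∉ 𝔫 ∧
        ∃ b₁ b₂ : ↥(chartClosure A E H),
          s * z = algebraMap A ↥(chartClosure A E H) ϖ * b₁ + U' * b₂) :
    cchIncl A E x H hH (cchEv A E H Q) ∉ 𝔫 ∧
    ∀ z ∈ 𝔫, ∃ s, s ∉ 𝔫 ∧ ∃ b₁ b₂ : ↥(chartClosure A E x),
      s * z = algebraMap A ↥(chartClosure A E x) ϖ * b₁ + cchIncl A E x H hH U' * b₂ := by
  haveI hp𝔫 := h𝔫.isPrime
  set ι := cchIncl A E x H hH with hι
  have hQunit : (⟨v, hv⟩ : ↥(chartClosure A E x)) * ι (cchEv A E H Q) = 1 :=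
    Subtype.ext hvQ
  have hQ𝔫 : ι (cchEv A E H Q) ∉ 𝔫 := by
    intro hmem
    apply h𝔫.ne_top
    rw [Ideal.eq_top_iff_one, ← hQunit]
    exact Ideal.mul_mem_left _ _ hmem
  have hQ0 : aeval H Q ≠ 0 := by
    intro h0
    rw [h0, mul_zero] at hvQ
    exact zero_ne_one hvQ
  refine ⟨hQ𝔫, ?_⟩
  intro z hz
  obtain ⟨K, hK⟩ := cch_exists_pow_mul_intX P Q hQ0 hrel
    ((Fermat.Agent.H87.KL.mem_chartClosure_iff x z.1).1 z.2)
  have hK' : aeval H Q ^ K * (z : E) ∈ chartClosure A E H :=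
    (Fermat.Agent.H87.KL.mem_chartClosure_iff H _).2 hK
  set z' : ↥(chartClosure A E H) := ⟨aeval H Q ^ K * (z : E), hK'⟩ with hz'
  have hιz' : ι z' = ι (cchEv A E H Q) ^ K * z := Subtype.ext rfl
  have hz'mem : ι z' ∈ 𝔫 := by
    rw [hιz']
    exact Ideal.mul_mem_left _ _ hz
  obtain ⟨s', hs', b₁, b₂, hsz⟩ := hgen z' hz'mem
  refine ⟨ι s' * ι (cchEv A E H Q) ^ K, ?_, ι b₁, ι b₂, ?_⟩
  · intro hmem
    rcases hp𝔫.mem_or_mem hmem with h1 | h2
    · exact hs' h1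
    · exact hQ𝔫 (hp𝔫.mem_of_pow_mem K h2)
  · have h1 := congrArg ι hsz
    rw [map_mul, map_add, map_mul, map_mul, hιz', hι, cchIncl_algebraMap] at h1
    rw [← h1]
    ring

end Chart

/-! ### The polynomial dichotomy -/

section Poly

variable {A : Type} [CommRing A] [IsDomain A] [IsDiscreteValuationRing A]

/-- A polynomial which vanishes modulo the maximal ideal is divisible by the uniformiser. -/
theorem sy_C_dvd_of_map_eq_zero {ϖ : A} (hϖ : Irreducible ϖ) {p : A[X]}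
    (h : p.map (IsLocalRing.residue A) = 0) : C ϖ ∣ p := by
  rw [C_dvd_iff_dvd_coeff]
  intro i
  have h1 : IsLocalRing.residue A (p.coeff i) = 0 := by
    rw [← coeff_map, h, coeff_zero]
  rw [IsLocalRing.residue_eq_zero_iff, hϖ.maximalIdeal_eq, Ideal.mem_span_singleton] at h1
  exact h1

/-- Lifting an identity from the residue field. -/
theorem sy_lift_eq {ϖ : A} (hϖ : Irreducible ϖ) {p r : A[X]}
    (h : p.map (IsLocalRing.residue A) = r.map (IsLocalRing.residue A)) :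
    ∃ c : A[X], p = r + C ϖ * c := by
  have h1 : (p - r).map (IsLocalRing.residue A) = 0 := by
    rw [Polynomial.map_sub, h, sub_self]
  obtain ⟨c, hc⟩ := sy_C_dvd_of_map_eq_zero hϖ h1
  exact ⟨c, by rw [← hc]; ring⟩

/-- **The dichotomy**: `X ^ (q ^ 2) - X` is separable modulo `ϖ`. -/
theorem sy_poly_dichotomy {ϖ : A} (hϖ : Irreducible ϖ) (q : ℕ) (hq : q.Prime)
    (hqA : ¬ IsUnit ((q : ℕ) : A))
    (g : A[X]) (hgirr : Irreducible (g.map (IsLocalRing.residue A))) :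
    (∃ a b c : A[X], a * g + b * (X ^ (q ^ 2) - X) = 1 + C ϖ * c) ∨
    (∃ h c₁ a b c₂ : A[X], X ^ (q ^ 2) - X = g * h + C ϖ * c₁ ∧
      a * g + b * h = 1 + C ϖ * c₂) := by
  classical
  have h0 : ((q : ℕ) : IsLocalRing.ResidueField A) = 0 := by
    have h1 : IsLocalRing.residue A ((q : ℕ) : A) = 0 :=
      (IsLocalRing.residue_eq_zero_iff _).mpr ((IsLocalRing.mem_maximalIdeal _).mpr hqA)
    rwa [map_natCast] at h1
  haveI : CharP (IsLocalRing.ResidueField A) q := (CharP.charP_iff_prime_eq_zero hq).mpr h0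
  have hsep : (X ^ (q ^ 2) - X : (IsLocalRing.ResidueField A)[X]).Separable :=
    galois_poly_separable q (q ^ 2) (dvd_pow_self q two_ne_zero)
  have hsurj : Function.Surjective (Polynomial.map (IsLocalRing.residue A)) :=
    Polynomial.map_surjective _ IsLocalRing.residue_surjective
  have hPmap : (X ^ (q ^ 2) - X : A[X]).map (IsLocalRing.residue A) = X ^ (q ^ 2) - X := by
    rw [Polynomial.map_sub, Polynomial.map_pow, Polynomial.map_X]
  by_cases hdvd : g.map (IsLocalRing.residue A) ∣ X ^ (q ^ 2) - X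
  · right
    obtain ⟨hbar, hh⟩ := hdvd
    rw [hh] at hsep
    obtain ⟨abar, bbar, hab⟩ := hsep.isCoprime
    obtain ⟨h, rfl⟩ := hsurj hbar
    obtain ⟨a, rfl⟩ := hsurj abar
    obtain ⟨b, rfl⟩ := hsurj bbar
    obtain ⟨c₁, hc₁⟩ := sy_lift_eq hϖ (p := X ^ (q ^ 2) - X) (r := g * h) (by
      rw [hPmap, hh, Polynomial.map_mul])
    obtain ⟨c₂, hc₂⟩ := sy_lift_eq hϖ (p := a * g + b * h) (r := 1) (by
      rw [Polynomial.map_add, Polynomial.map_mul, Polynomial.map_mul, Polynomial.map_one, hab])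
    exact ⟨h, c₁, a, b, c₂, hc₁, hc₂⟩
  · left
    obtain ⟨abar, bbar, hab⟩ := hgirr.coprime_iff_not_dvd.2 hdvd
    obtain ⟨a, rfl⟩ := hsurj abar
    obtain ⟨b, rfl⟩ := hsurj bbar
    obtain ⟨c, hc⟩ := sy_lift_eq hϖ (p := a * g + b * (X ^ (q ^ 2) - X)) (r := 1) (by
      rw [Polynomial.map_add, Polynomial.map_mul, Polynomial.map_mul, Polynomial.map_one, hPmap,
        hab])
    exact ⟨a, b, c, hc⟩

end Poly

end Fermat.Agent.H95.SS2

end
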